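/-
Cluster J (S59), leaf (BASE): the coefficient ring and the base point.  From residual modularity
of level `N` we get a complete discrete valuation ring `𝒪` of characteristic zero with finite
residue field of characteristic `p` in which every monic quadratic polynomial with integer
coefficients splits, and a ring homomorphism `χ` from the Hecke algebra (away from any `S`) to `𝒪`
with `χ(T_ℓ) ≡ a_ℓ(W)` modulo the maximal ideal.
Proof: helper85.
Route: eigenvalue character `𝕋 → ℂ` of the eigenform (`baseEigenChar`), integral by S22; its image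
and one root of each `X² - m X + m'` (`0 ≤ m, m' < p`) generate a number field `K ⊆ ℂ`;
complete `𝓞 K` at the prime `𝔪 ∩ 𝓞 K` (`Lib/DVRPoints`).
-/
import Fermat.Prelude.Def_CuspForm_HeckeAlgebra
import Fermat.Prelude.Def_FLTPrelim_ModularRep
import Mathlib.RingTheory.DiscreteValuationRing.Basic
import Mathlib.RingTheory.AdicCompletion.Basic
import Mathlib.RingTheory.LocalRing.ResidueField.Basic
import Fermat.Agent.S59.Datum.Base.EigenChar
import Fermat.Agent.S59.Datum.Base.Field
import Fermat.Agent.S22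
import Fermat.Agent.Lib.DVRPoints.NumberField

set_option autoImplicit false

open Polynomial

namespace Fermat.Agent.S59

open CuspForm IsLocalRing

section Aux

open NumberField IsDedekindDomain

/-- The inclusion of the ring of integers of a subfield of `ℂ` in `ℤ̄`. -/
noncomputable def baseIncl (K : IntermediateField ℚ ℂ) : 𝓞 K →+* integralClosure ℤ ℂ :=
  RingHom.codRestrict ((algebraMap K ℂ).comp (algebraMap (𝓞 K) K)) (integralClosure ℤ ℂ)
    fun x => (RingOfIntegers.isIntegral_coe x).algebraMap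

theorem baseIncl_coe (K : IntermediateField ℚ ℂ) (x : 𝓞 K) :
    ((baseIncl K x : integralClosure ℤ ℂ) : ℂ) = ((x : K) : ℂ) := rfl

/-- A quadratic with a root splits. -/
theorem base_quadratic_split {k : Type*} [CommRing k] (a b α : k) (h : α ^ 2 - a * α + b = 0) :
    (X ^ 2 - C a * X + C b : k[X]) = (X - C α) * (X - C (a - α)) := by
  have hb : b = α * (a - α) := by linear_combination h
  rw [hb]
  simp only [map_mul, map_sub]
  ring

theorem base_intCast_eq {k : Type*} [CommRing k] {p : ℕ} (hp0 : p ≠ 0) (hp : (p : k) = 0)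
    (m : ℤ) : ((m % (p : ℤ)).toNat : k) = (m : k) := by
  have h0 : 0 ≤ m % (p : ℤ) := Int.emod_nonneg m (by exact_mod_cast hp0)
  have h1 : (((m % (p : ℤ)).toNat : ℤ) : k) = ((m % (p : ℤ) : ℤ) : k) := by
    rw [Int.toNat_of_nonneg h0]
  have h2 : (m : k) = ((p : ℤ) : k) * ((m / (p : ℤ) : ℤ) : k) + ((m % (p : ℤ) : ℤ) : k) := by
    rw [← Int.cast_mul, ← Int.cast_add, Int.mul_ediv_add_emod]
  rw [h2, Int.cast_natCast, hp, zero_mul, zero_add, ← h1, Int.cast_natCast]

theorem base_toNat_lt {p : ℕ} (hp0 : p ≠ 0) (m : ℤ) : (m % (p : ℤ)).toNat < p := by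
  have h0 : 0 ≤ m % (p : ℤ) := Int.emod_nonneg m (by exact_mod_cast hp0)
  have h1 : m % (p : ℤ) < p := Int.emod_lt_of_pos m (by exact_mod_cast Nat.pos_of_ne_zero hp0)
  omega

end Aux

theorem exists_coefficientRing_of_isResiduallyModularOfLevel (W : WeierstrassCurve ℤ)
    (p : ℕ) [Fact p.Prime] (N : ℕ) [NeZero N] (S : Set ℕ)
    (hres : W.IsResiduallyModularOfLevel p N) :
    ∃ (𝒪 : Type) (_ : CommRing 𝒪) (_ : IsDomain 𝒪) (_ : IsDiscreteValuationRing 𝒪)
      (_ : IsAdicComplete (maximalIdeal 𝒪) 𝒪) (_ : Finite (ResidueField 𝒪)) (_ : CharZero 𝒪),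
      (p : 𝒪) ∈ maximalIdeal 𝒪 ∧
      (∀ a b : ResidueField 𝒪, (∃ m : ℤ, (m : ResidueField 𝒪) = a) →
        (∃ m : ℤ, (m : ResidueField 𝒪) = b) →
        ∃ α β : ResidueField 𝒪, (X ^ 2 - C a * X + C b : (ResidueField 𝒪)[X]) =
          (X - C α) * (X - C β)) ∧
      ∃ χ : heckeAlgebra N 2 S →+* 𝒪,
        ∀ (ℓ : ℕ) (hℓ : ℓ.Prime) (hℓN : ¬ ℓ ∣ N) (hℓS : ℓ ∉ S), W.IsGoodPrimeFor ℓ → ℓ ≠ p →
          χ (heckeAlgebra.T hℓ hℓN hℓS) - ((W.apOfModel ℓ : ℤ) : 𝒪) ∈ maximalIdeal 𝒪 := by
  classical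
  obtain ⟨f, 𝔪, hf, h𝔪, hp𝔪, hcong⟩ := hres
  have hp0 : p ≠ 0 := (Fact.out : p.Prime).ne_zero
  -- the eigencharacter and its integrality
  set lam : heckeAlgebra N 2 S →+* ℂ := baseEigenChar hf S with hlam
  have hfin : Module.Finite ℤ (heckeAlgebra N 2 S) := Fermat.Agent.S22.result N 2 S
  have hlamInt : ∀ t, IsIntegral ℤ (lam t) := fun t =>
    (Algebra.IsIntegral.isIntegral (R := ℤ) t).map (lam.toIntAlgHom)
  obtain ⟨s, hs⟩ := (Module.Finite.fg_top : (⊤ : Submodule ℤ (heckeAlgebra N 2 S)).FG)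
  set G : Set ℂ := lam '' (s : Set (heckeAlgebra N 2 S)) with hG
  have hGfin : G.Finite := (Finset.finite_toSet s).image _
  have hGint : ∀ x ∈ G, IsIntegral ℤ x := by
    rintro _ ⟨t, -, rfl⟩
    exact hlamInt t
  set K : IntermediateField ℚ ℂ := baseField p G with hK
  have : NumberField K := numberField_baseField p hGfin hGint
  have hlamK : ∀ t, lam t ∈ K := by
    intro t
    have ht : t ∈ Submodule.span ℤ (s : Set (heckeAlgebra N 2 S)) := by rw [hs]; trivial
    refine Submodule.span_induction (p := fun t _ => lam t ∈ K) ?_ ?_ ?_ ?_ ht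
    · intro x hx
      exact subset_baseField p G ⟨x, hx, rfl⟩
    · rw [map_zero]; exact zero_mem K
    · intro x y _ _ hx hy
      rw [map_add]; exact add_mem hx hy
    · intro c x _ hx
      rw [zsmul_eq_mul, map_mul, map_intCast]
      exact mul_mem (intCast_mem K c) hx
  -- the character with values in `𝓞 K`
  let lamK : heckeAlgebra N 2 S →+* K := RingHom.codRestrict lam K hlamK
  have hlamKint : ∀ t, IsIntegral ℤ (lamK t) := by
    intro t
    have h := hlamInt t
    rw [← isIntegral_algebraMap_iff (FaithfulSMul.algebraMap_injective K ℂ)]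
    exact h
  let lamO : heckeAlgebra N 2 S →+* NumberField.RingOfIntegers K :=
    RingHom.codRestrict lamK (integralClosure ℤ K) hlamKint
  have hlamO : ∀ t, ((baseIncl K (lamO t) : integralClosure ℤ ℂ) : ℂ) = lam t := fun t => rfl
  -- the prime
  set 𝔓 : Ideal (NumberField.RingOfIntegers K) := Ideal.comap (baseIncl K) 𝔪 with h𝔓
  have : 𝔪.IsPrime := h𝔪.isPrime
  have h𝔓prime : 𝔓.IsPrime := Ideal.comap_isPrime (baseIncl K) 𝔪
  have hp𝔓 : (p : NumberField.RingOfIntegers K) ∈ 𝔓 := by
    rw [h𝔓, Ideal.mem_comap, map_natCast]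
    exact hp𝔪
  have h𝔓ne : 𝔓 ≠ ⊥ := by
    intro h
    rw [h, Ideal.mem_bot] at hp𝔓
    exact hp0 (by exact_mod_cast hp𝔓)
  let v : IsDedekindDomain.HeightOneSpectrum (NumberField.RingOfIntegers K) :=
    ⟨𝔓, h𝔓prime, h𝔓ne⟩
  have : Finite (NumberField.RingOfIntegers K ⧸ v.asIdeal) :=
    Ideal.finiteQuotientOfFreeOfNeBot v.asIdeal v.ne_bot
  have hpmax : (p : v.adicCompletionIntegers K) ∈ maximalIdeal (v.adicCompletionIntegers K) :=
    Fermat.Agent.DVRPoints.natCast_mem_maximalIdeal v p hp𝔓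
  refine ⟨v.adicCompletionIntegers K, inferInstance, inferInstance, inferInstance,
    Fermat.Agent.DVRPoints.isAdicComplete_adicCompletionIntegers v,
    Fermat.Agent.DVRPoints.finite_residueField v,
    Fermat.Agent.DVRPoints.charZero_adicCompletionIntegers v, hpmax, ?_, ?_⟩
  · -- quadratics split in the residue field
    rintro a b ⟨m, rfl⟩ ⟨m', rfl⟩
    have hpk : ((p : ℕ) : ResidueField (v.adicCompletionIntegers K)) = 0 := by
      have := (residue_eq_zero_iff (p : v.adicCompletionIntegers K)).mpr hpmax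
      rwa [map_natCast] at this
    set m₀ := (m % (p : ℤ)).toNat with hm₀
    set m₀' := (m' % (p : ℤ)).toNat with hm₀'
    have hαK : baseRoot m₀ m₀' ∈ K :=
      baseRoot_mem_baseField p G (base_toNat_lt hp0 m) (base_toNat_lt hp0 m')
    have hαint : IsIntegral ℤ (⟨baseRoot m₀ m₀', hαK⟩ : K) := by
      rw [← isIntegral_algebraMap_iff (FaithfulSMul.algebraMap_injective K ℂ)]
      exact isIntegral_baseRoot m₀ m₀'
    let αO : NumberField.RingOfIntegers K := ⟨⟨baseRoot m₀ m₀', hαK⟩, hαint⟩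
    have hαO : αO ^ 2 - (m₀ : NumberField.RingOfIntegers K) * αO +
        (m₀' : NumberField.RingOfIntegers K) = 0 := by
      have hj : Function.Injective ((algebraMap K ℂ).comp
          (algebraMap (NumberField.RingOfIntegers K) K)) :=
        (FaithfulSMul.algebraMap_injective K ℂ).comp NumberField.RingOfIntegers.coe_injective
      apply hj
      rw [map_add, map_sub, map_mul, map_pow, map_natCast, map_natCast, map_zero]
      exact baseRoot_spec m₀ m₀'
    let red : NumberField.RingOfIntegers K →+* ResidueField (v.adicCompletionIntegers K) :=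
      (residue (v.adicCompletionIntegers K)).comp
        (algebraMap (NumberField.RingOfIntegers K) (v.adicCompletionIntegers K))
    have hred := congrArg red hαO
    rw [map_add, map_sub, map_mul, map_pow, map_natCast, map_natCast, map_zero,
      base_intCast_eq hp0 hpk m, base_intCast_eq hp0 hpk m'] at hred
    exact ⟨red αO, _, base_quadratic_split _ _ (red αO) hred⟩
  · -- the base point
    refine ⟨(algebraMap (NumberField.RingOfIntegers K) (v.adicCompletionIntegers K)).comp lamO,
      ?_⟩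
    intro ℓ hℓ hℓN hℓS hgood hℓp
    obtain ⟨a, ha, ham⟩ := hcong ℓ hℓ hgood hℓN hℓp
    have h1 : lamO (heckeAlgebra.T hℓ hℓN hℓS) - ((W.apOfModel ℓ : ℤ) :
        NumberField.RingOfIntegers K) ∈ v.asIdeal := by
      show _ ∈ 𝔓
      rw [h𝔓, Ideal.mem_comap, map_sub, map_intCast]
      have h2 : baseIncl K (lamO (heckeAlgebra.T hℓ hℓN hℓS)) = a := by
        apply Subtype.ext
        rw [hlamO, hlam, baseEigenChar_T, ha]
      rw [h2]
      exact ham
    have h3 := (Fermat.Agent.DVRPoints.algebraMap_mem_maximalIdeal_iff (K := K) v _).mpr h1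
    rw [map_sub, map_intCast] at h3
    exact h3

end Fermat.Agent.S59
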