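/-
Cluster J (S59), leaf (CAR): Carayol's lemma.  A finite family of representations over local
`T`-algebras `A i`, finite over `T`, whose traces come from one function with values in `T`
(`T → ∏ A i` injective), residually absolutely irreducible, descends to a representation over `T`.
PROVED (helper22): the proof is in `Fermat/Agent/S59/Datum/Car/*.lean`
(`Car.exists_galoisRepAdic_of_traces'`; little Wedderburn + Hensel + Artin-Rees + trace rigidity).
Reference: Carayol, "Formes modulaires et représentations galoisiennes à valeurs dans un anneau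
local complet", Théorème 2; Mazur, "Deforming Galois representations" §1.8 (Serre).
Used for: existence of the `T`-valued representation in a `HeckeGaloisRepDatum`
(`A i` = the coefficient rings of the eigenforms, `T` = localised Hecke ring, reduced by Petersson).
-/
import Fermat.Prelude.Def_GaloisRep_Adic
import Mathlib.RingTheory.AdicCompletion.Basic
import Mathlib.RingTheory.Noetherian.Basic
import Mathlib.RingTheory.FiniteType
import Fermat.Agent.S59.Datum.Car.Main

set_option autoImplicit false

namespace Fermat.Agent.S59

open IsLocalRing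

theorem exists_galoisRepAdic_of_traces
    {T : Type} [CommRing T] [IsLocalRing T] [IsNoetherianRing T]
    [IsAdicComplete (maximalIdeal T) T] [Finite (ResidueField T)]
    {ι : Type} [Finite ι] [Nonempty ι] (A : ι → Type) [∀ i, CommRing (A i)]
    [∀ i, IsLocalRing (A i)]
    (ψ : ∀ i, T →+* A i) (hψ : ∀ i, IsLocalHom (ψ i)) (hfin : ∀ i, (ψ i).Finite)
    (hinj : ∀ t : T, (∀ i, ψ i t = 0) → t = 0)
    (ρ : ∀ i, GaloisRepAdic (A i))
    (tr : (AlgebraicClosure ℚ ≃ₐ[ℚ] AlgebraicClosure ℚ) → T)
    (htr : ∀ i σ, ψ i (tr σ) = (ρ i).trace σ)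
    (habs : ∀ i, (ρ i).residual.IsAbsolutelyIrreducible) :
    ∃ ρT : GaloisRepAdic T, ∀ i, (ρT.baseChangeAlong (ψ i) (hψ i)).IsEquiv (ρ i) :=
  Car.exists_galoisRepAdic_of_traces' A ψ hψ hfin hinj ρ tr htr habs

end Fermat.Agent.S59
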