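/-
Cluster J (S59), leaf (HD): existence of the Hecke-Galois datum on the localised Hecke ring
`T = heckeLocal N S 𝒪 θ`, from the representations attached to eigenforms (S30, taken as the
hypothesis `S30At N`), reducedness of the Hecke algebra away from the level (Lib/Petersson, taken as
a hypothesis) and Carayol's lemma (`S59/Datum/Carayol.lean`).
STUB (owner: see NOTES/blueprint-J-S59.md).

Route: `𝕋 = heckeAlgebra N 2 S` is finite over `ℤ` (S22) and reduced, so finitely many points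
`χ_i : 𝕋 → 𝒪_i` in complete discrete valuation rings separate it (`Lib/DVRPoints`); keep those that
factor through `T` (i.e. reduce to `θ`); `ρ_i` := S30 for `χ_i`; the residual representations have
the Frobenius characteristic polynomials of `ρbar`, hence are absolutely irreducible
(`Lib/TraceRigidity`, Frobenius density); traces lie in `T` by density + completeness;
Carayol gives `ρ_T`; `charpoly_frob` is checked in `∏ 𝒪_i`.
-/
import Fermat.Agent.S30.Iface
import Fermat.Prelude.Def_CuspForm_HeckeLocal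
import Fermat.Prelude.Def_CuspForm_HeckeGaloisRepDatum

set_option autoImplicit false

open Polynomial

namespace Fermat.Agent.S59

open CuspForm IsLocalRing

theorem exists_heckeGaloisRepDatum_heckeLocal {N : ℕ} [NeZero N]
    [Fact (HasIntegralStructure N 2)]
    (p : ℕ) [Fact p.Prime] (S : Finset ℕ) (hpS : p ∈ S)
    (hNS : ∀ q : ℕ, q.Prime → q ∣ N → q ∈ S)
    (𝒪 : Type) [CommRing 𝒪] [IsDomain 𝒪] [IsDiscreteValuationRing 𝒪]
    [IsAdicComplete (maximalIdeal 𝒪) 𝒪] [Finite (ResidueField 𝒪)] [CharZero 𝒪]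
    (hp𝒪 : (p : 𝒪) ∈ maximalIdeal 𝒪)
    (θ : heckeAlgebra N 2 (↑S : Set ℕ) →+* ResidueField 𝒪)
    (ρbar : ResidualGaloisRep (ResidueField 𝒪)) (habs : ρbar.IsAbsolutelyIrreducible)
    (hθ : ∀ (ℓ : ℕ) (hℓ : ℓ.Prime) (hℓN : ¬ ℓ ∣ N) (hℓS : ℓ ∉ (↑S : Set ℕ)),
      ∀ A : ValuationSubring (AlgebraicClosure ℚ), A.LiesOverPrime ℓ →
        ∀ σ : AlgebraicClosure ℚ ≃ₐ[ℚ] AlgebraicClosure ℚ, A.IsFrobeniusAt σ ℓ →
          LinearMap.charpoly (ρbar.ρ σ) =
            X ^ 2 - C (θ (heckeAlgebra.T hℓ hℓN hℓS)) * X + C ((ℓ : ResidueField 𝒪)))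
    (h30 : Fermat.Agent.S30.S30At N)
    (hred : IsReduced (heckeAlgebra N 2 (↑S : Set ℕ))) :
    ∃ H : HeckeGaloisRepDatum N (↑S : Set ℕ) 𝒪 θ (heckeLocal N (↑S : Set ℕ) 𝒪 θ),
      H.π = heckeLocal.π N (↑S : Set ℕ) 𝒪 θ ∧
      H.ρ.residual.IsEquiv (ρbar.baseChangeAlong
        (ResidueField.map (algebraMap 𝒪 (heckeLocal N (↑S : Set ℕ) 𝒪 θ)))) := by
  sorry

end Fermat.Agent.S59
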